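import Fermat.Agent.Jac27.Finite.Geom.Target
import Fermat.Agent.BadRed.Torsion

/-!
# Classes of a curve over the algebraic closure of a finite field fixed by the square of Frobenius
-/

set_option autoImplicit false
set_option linter.style.haveILetI false
set_option linter.unusedSectionVars false

noncomputable section

namespace FLTAgent.Entry.Surj

open AlgebraicCurve FLTAgent.Curves FLTAgent.Specialization
open FLTAgent.Jac27.Finite FLTAgent.Jac27.Finite.Geom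

variable {k E : Type*} [Field k] [Field E] [Algebra k E] [IsAlgClosed k] [IsFunctionField k E]
  (Φ : Frob k E)

/-- The classes fixed by the square of Frobenius are killed by one positive number. -/
theorem exists_sq_fixed_bound :
    ∃ C : ℕ, C ≠ 0 ∧ ∀ c : Pic0 k E, Φ.sigma (Φ.sigma c) = c → C • c = 0 := by
  obtain ⟨v, -⟩ := exists_ord_pos (K := k) Φ.trans
  obtain ⟨r, hr, hv⟩ := Φ.place_periodic v
  haveI hf : Finite (fixedBy (Φ.pow (r * 2) (by omega)).sigma) :=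
    Geom.finite_fixed _ v (by rw [Frob.place_pow, Function.iterate_mul]; exact Function.iterate_fixed hv 2)
      (rGenus k E).toNat (Int.toNat_of_nonneg Geom.rGenus_nonneg)
  set H := fixedBy (Φ.pow (r * 2) (by omega)).sigma
  refine ⟨Nat.card H, (Nat.card_pos (α := H)).ne', fun c hc => ?_⟩
  have hmem : c ∈ H := by
    rw [mem_fixedBy, Φ.sigma_pow, mul_comm, pow_mul]
    suffices ∀ i : ℕ, (((Φ.sigma ^ 2) ^ i) : AddMonoid.End _) c = c from this r
    intro i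
    induction i with
    | zero => rfl
    | succ i ih =>
      rw [pow_succ]
      show (((Φ.sigma ^ 2) ^ i) : AddMonoid.End _) ((Φ.sigma ^ 2) c) = c
      rw [show (Φ.sigma ^ 2) c = Φ.sigma (Φ.sigma c) by rw [pow_two]; rfl, hc, ih]
  exact congrArg Subtype.val (card_nsmul_eq_zero' (x := (⟨c, hmem⟩ : H)))

/-- The class of an `n`-th part of the divisor of a function. -/
theorem exists_part {a : E} {n : ℕ} (hn : n ≠ 0) (h : ∀ v : Place k E, (n : ℤ) ∣ v.ord a) :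
    ∃ D : Divisor.degZero (K := k) (F := E), ∀ v, v.ord a = (n : ℤ) * (D : Divisor k E) v := by
  set D : Divisor k E := (divOf k a).mapRange (fun e => e / (n : ℤ)) (Int.zero_ediv _)
  have hv : ∀ v, v.ord a = (n : ℤ) * D v := fun v => by
    rw [Finsupp.mapRange_apply, divOf_apply, Int.mul_ediv_cancel' (h v)]
  refine ⟨⟨D, Divisor.mem_degZero.2 ?_⟩, hv⟩
  have e : (n : ℤ) • D = divOf k a := Finsupp.ext fun v => by
    rw [Finsupp.smul_apply, smul_eq_mul, ← hv, divOf_apply]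
  have e2 := congrArg Divisor.degree e
  rw [map_zsmul, degree_divOf, smul_eq_mul, mul_eq_zero] at e2
  exact e2.resolve_left (Int.natCast_ne_zero.2 hn)

/-- A multiple which kills the class makes the function a power. -/
theorem exists_pow_of_nsmul_eq_zero {a : E} (ha : a ≠ 0) {n C : ℕ} (hn : n ≠ 0)
    {D : Divisor.degZero (K := k) (F := E)} (hD : ∀ v, v.ord a = (n : ℤ) * (D : Divisor k E) v)
    (hC : C • (Pic0.mk D : Pic0 k E) = 0) : ∃ h : E, h ≠ 0 ∧ a ^ C = h ^ n := by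
  obtain ⟨r, hr, hrD⟩ := AddSubgroup.mem_addSubgroupOf.1
    ((QuotientAddGroup.eq_zero_iff _).1 ((QuotientAddGroup.mk_nsmul _ D C).trans hC))
  obtain ⟨γ, hγ⟩ := eq_algebraMap_of_forall_ord_nonneg (K := k) (f := a ^ C / r ^ n) fun v => by
    rw [ord_div v (pow_ne_zero _ ha) (pow_ne_zero _ hr), ord_pow, ord_pow, hD, ← hrD v,
      AddSubgroupClass.coe_nsmul, Finsupp.smul_apply, nsmul_eq_mul]
    exact le_of_eq (by ring)
  obtain ⟨ρ, hρ⟩ := IsAlgClosed.exists_pow_nat_eq γ (Nat.pos_of_ne_zero hn)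
  have he : (algebraMap k E ρ * r) ^ n = a ^ C := by
    rw [mul_pow, ← map_pow, hρ, ← hγ, div_mul_cancel₀ _ (pow_ne_zero _ hr)]
  exact ⟨_, fun h0 => pow_ne_zero C ha (by rw [← he, h0, zero_pow hn]), he.symm⟩

/-- The classes of two reductions related by Frobenius both ways. -/
theorem exists_pow_pair {a₁ a₂ : E} (h₁ : a₁ ≠ 0) (h₂ : a₂ ≠ 0) {n C : ℕ} (hn : n ≠ 0)
    (hC : ∀ c : Pic0 k E, Φ.sigma (Φ.sigma c) = c → C • c = 0)
    (hd₁ : ∀ v : Place k E, (n : ℤ) ∣ v.ord a₁) (r₁ : ∃ h, a₁ * Φ.φ a₂ = h ^ n)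
    (r₂ : ∃ h, a₂ * Φ.φ a₁ = h ^ n) :
    ∃ h₁ h₂ : E, h₁ ≠ 0 ∧ h₂ ≠ 0 ∧ a₁ ^ C = h₁ ^ n ∧ a₂ ^ C = h₂ ^ n := by
  have hd₂ : ∀ v : Place k E, (n : ℤ) ∣ v.ord a₂ := fun v => by
    obtain ⟨h, hh⟩ := r₁
    have e := congrArg (Φ.place v).ord hh
    rw [Place.ord_mul _ h₁ ((map_ne_zero _).2 h₂), Φ.ord_place, ord_pow] at e
    obtain ⟨c, hc⟩ := hd₁ (Φ.place v)
    exact ⟨(Φ.place v).ord h - c, by rw [mul_sub, ← e, hc]; ring⟩
  obtain ⟨D₁, hD₁⟩ := exists_part hn hd₁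
  obtain ⟨D₂, hD₂⟩ := exists_part hn hd₂
  have key : ∀ {b b' : E} {D D' : Divisor.degZero (K := k) (F := E)}, b ≠ 0 → b' ≠ 0 →
      (∀ v, v.ord b = (n : ℤ) * (D : Divisor k E) v) →
      (∀ v, v.ord b' = (n : ℤ) * (D' : Divisor k E) v) → (∃ h, b * Φ.φ b' = h ^ n) →
      Φ.sigma (Pic0.mk D') = -(Pic0.mk D) := by
    rintro b b' D D' hb hb' hD hD' ⟨h, hh⟩
    rw [eq_neg_iff_add_eq_zero, add_comm, Frob.sigma_mk]
    refine (QuotientAddGroup.mk_add _ _ _).symm.trans ((QuotientAddGroup.eq_zero_iff _).2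
      (AddSubgroup.mem_addSubgroupOf.2 ⟨h, fun h0 => ?_, fun v => ?_⟩))
    · rw [h0, zero_pow hn] at hh
      exact mul_ne_zero hb ((map_ne_zero _).2 hb') hh
    · obtain ⟨w, rfl⟩ := Φ.place.surjective v
      have e := congrArg (Φ.place w).ord hh
      rw [Place.ord_mul _ hb ((map_ne_zero _).2 hb'), Φ.ord_place, ord_pow, hD, hD', ← mul_add] at e
      rw [AddSubgroup.coe_add, Finsupp.add_apply, Frob.degZeroMap_coe, Φ.divisor_apply]
      exact mul_left_cancel₀ (Int.natCast_ne_zero.2 hn) e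
  have e₁ := key h₁ h₂ hD₁ hD₂ r₁
  have e₂ := key h₂ h₁ hD₂ hD₁ r₂
  have k₁ := hC (Pic0.mk D₁) (by rw [e₂, map_neg, e₁, neg_neg])
  have k₂ := hC (Pic0.mk D₂) (by rw [e₁, map_neg, e₂, neg_neg])
  obtain ⟨g₁, hg₁, he₁⟩ := exists_pow_of_nsmul_eq_zero h₁ hn hD₁ k₁
  obtain ⟨g₂, hg₂, he₂⟩ := exists_pow_of_nsmul_eq_zero h₂ hn hD₂ k₂
  exact ⟨g₁, g₂, hg₁, hg₂, he₁, he₂⟩

end FLTAgent.Entry.Surj
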