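import Fermat.Agent.BadRed.Torsion

/-!
# Classes with both reductions powers and their gluing constants
-/

set_option autoImplicit false
set_option linter.style.haveILetI false
set_option linter.unusedSectionVars false

noncomputable section

namespace FLTAgent.Entry.Surj

open AlgebraicCurve FLTAgent.Curves FLTAgent.Specialization FLTAgent.BadRed IntermediateField

variable {L k : Type*} [Field L] [Field k] {A : ValuationSubring L} {π : A →+* k}
  {FC Fb F : Type*} [Field FC] [Field Fb] [Field F] [Algebra L FC]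
  [Algebra k Fb] [Algebra L F] [IsAlgClosed L] [IsFunctionField L FC] [IsFunctionField L F]
  [IsAlgClosed k] [IsFunctionField k Fb] {q : ℕ} {S : Sheet π FC Fb F q}

/-- The class `x` has a function with both reductions powers and gluing constants `ζ`. -/
def InK (N : S.Nodes) (n : ℕ) (x : Pic0 L F) (ζ : Fin N.n → k) : Prop :=
  ∃ (z : S.KData n) (D : Divisor.degZero (K := L) (F := F)),
    Pic0.mk D = x ∧ (∀ v, v.ord z.f = (n : ℤ) * (D : Divisor L F) v) ∧ z.twist N = ζ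

/-- An element with constant power is constant. -/
theorem exists_const_of_pow {K E : Type*} [Field K] [Field E] [Algebra K E] [IsAlgClosed K]
    [IsFunctionField K E] {a : E} {n : ℕ} (hn : n ≠ 0) {r : K}
    (h : a ^ n = algebraMap K E r) : ∃ c : K, a = algebraMap K E c :=
  eq_algebraMap_of_forall_ord_nonneg (K := K) fun v => by
    have h1 := congrArg v.ord h
    rw [ord_pow, ord_algebraMap, mul_eq_zero] at h1
    rcases h1 with h1 | h1
    · exact absurd h1 (Int.natCast_ne_zero.2 hn)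
    · omega

variable {N : S.Nodes} {n : ℕ} {x y : Pic0 L F} {ζ ξ : Fin N.n → k}

theorem InK.pow_eq_one (h : InK N n x ζ) (i : Fin N.n) : ζ i ^ n = 1 := by
  obtain ⟨z, -, -, -, rfl⟩ := h
  exact z.twist_pow N i

theorem InK.mul (hS : S.Good) (h : InK N n x ζ) (h' : InK N n y ξ) : InK N n (x + y) (ζ * ξ) := by
  obtain ⟨z, D, rfl, hD, rfl⟩ := h
  obtain ⟨z', D', rfl, hD', rfl⟩ := h'
  refine ⟨z.mul z', D + D', QuotientAddGroup.mk_add _ _ _, fun v => ?_, z.twist_mul hS N z'⟩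
  show v.ord (z.f * z'.f) = _
  rw [v.ord_mul z.f_ne z'.f_ne, hD, hD', AddSubgroup.coe_add, Finsupp.add_apply, mul_add]

theorem InK.zero (hS : S.Good) (hn : (n : k) ≠ 0) : InK N n (0 : Pic0 L F) 1 :=
  ⟨Sheet.KData.unit hn, 0, QuotientAddGroup.mk_zero _, fun v => by
    show v.ord (1 : F) = _
    rw [v.ord_one]; simp, Sheet.KData.twist_unit hS N hn⟩

theorem InK.nsmul (hS : S.Good) (h : InK N n x ζ) (j : ℕ) : InK N n (j • x) (ζ ^ j) := by
  induction j with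
  | zero =>
    obtain ⟨z, -⟩ := h
    rw [zero_nsmul, pow_zero]
    exact InK.zero hS z.n_ne
  | succ j ih => rw [succ_nsmul, pow_succ]; exact ih.mul hS h

theorem InK.nsmul_eq_zero (h : InK N n x ζ) : n • x = 0 := by
  obtain ⟨z, D, rfl, hD, -⟩ := h
  refine (QuotientAddGroup.mk_nsmul _ D n).symm.trans ((QuotientAddGroup.eq_zero_iff _).2 ?_)
  refine AddSubgroup.mem_addSubgroupOf.2 ⟨z.f, z.f_ne, fun v => ?_⟩
  rw [hD, AddSubgroupClass.coe_nsmul, Finsupp.smul_apply, nsmul_eq_mul]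

/-- A constant may be moved into the data. -/
theorem InK.const_mul (hS : S.Good) (h : InK N n x ζ) {c : k} (hc : c ^ n = 1) :
    InK N n x (fun i => c * ζ i) := by
  obtain ⟨z, D, hx, hD, rfl⟩ := h
  have hn0 : n ≠ 0 := (Nat.pos_iff_ne_zero.1 z.pos)
  have hc0 : algebraMap k Fb c ≠ 0 := (map_ne_zero _).2 fun h0 => by
    rw [h0, zero_pow hn0] at hc; exact zero_ne_one hc
  let z' : S.KData n :=
    { z with
      g := (z.g.1, algebraMap k Fb c * z.g.2)
      g₂_ne := mul_ne_zero hc0 z.g₂_ne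
      res := by
        refine ⟨z.res.1, ?_⟩
        have h2 : ((z.g.1, algebraMap k Fb c * z.g.2) ^ n).2 = (z.g ^ n).2 := by
          simp only [Prod.pow_snd, mul_pow, ← map_pow, hc, map_one, one_mul]
        rw [h2]
        exact z.res.2 }
  refine ⟨z', D, hx, hD, z'.twist_eq hS N fun m φ hφ i => ?_⟩
  obtain ⟨u, hu, w, hw, rfl⟩ := z'.mem_normImg.1 hφ
  have h1 := z.twist_spec N m _ (z.mem_normImg.2 ⟨u, hu, w, hw, rfl⟩) i
  show N.s i (S.V (w.2 * (algebraMap k Fb c * z.g.2))) = c * z.twist N i * N.s i (w.1 * z.g.1)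
  rw [mul_left_comm, ← Algebra.smul_def, map_smul, map_smul, smul_eq_mul]
  rw [Prod.snd_mul, Prod.fst_mul] at h1
  rw [h1]
  ring

/-- The gluing constants of the trivial class are constant. -/
theorem InK.exists_eq_const (hS : S.Good) (h : InK N n (0 : Pic0 L F) ζ) :
    ∃ c, c ^ n = 1 ∧ ∀ i, ζ i = c := by
  rcases isEmpty_or_nonempty (Fin N.n) with he | ⟨⟨i₀⟩⟩
  · exact ⟨1, one_pow n, fun i => he.elim i⟩
  have hpow := fun i => h.pow_eq_one i
  suffices ∃ c, ∀ i, ζ i = c by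
    obtain ⟨c, hc⟩ := this
    exact ⟨c, hc i₀ ▸ hpow i₀, hc⟩
  obtain ⟨z, D, hx, hD, rfl⟩ := h
  have hn0 : n ≠ 0 := (Nat.pos_iff_ne_zero.1 z.pos)
  obtain ⟨h, hh, hhD⟩ := AddSubgroup.mem_addSubgroupOf.1 ((QuotientAddGroup.eq_zero_iff _).1 hx)
  have hzD : ∀ v, z.D v = v.ord h := fun v => mul_left_cancel₀ (Int.natCast_ne_zero.2 hn0) (by
    rw [z.mul_D, hD, hhD])
  obtain ⟨e, w, hw, hres⟩ := LRed.exists_scale (S.orth z.d_ne) S.MC.surj (inv_ne_zero hh)
  have hu : e • h⁻¹ ∈ z.space 0 := (z.space 0).smul_mem _ (z.mem_space_iff.2 fun v => ordGE_of_le (by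
    rw [v.ord_inv, hzD, Nat.cast_zero, zero_mul, add_zero]))
  set φ := w * z.g
  have hφ : φ ∈ z.normImg 0 := z.mem_normImg.2 ⟨_, hu, w, hres, rfl⟩
  obtain ⟨C, hC⟩ := eq_algebraMap_of_forall_ord_nonneg (K := L) (f := h⁻¹ ^ n * z.f) fun v => by
    rw [v.ord_mul (pow_ne_zero _ (inv_ne_zero hh)) z.f_ne, ord_pow, v.ord_inv, hD, hhD]
    exact le_of_eq (by ring)
  have hp := z.res_pow hres
  rw [_root_.smul_pow, smul_mul_assoc, hC, Algebra.smul_def, ← map_mul] at hp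
  obtain ⟨r, hr1, hr2⟩ : ∃ r : k, (φ ^ n).1 = algebraMap k Fb r ∧ (φ ^ n).2 = algebraMap k Fb r := by
    obtain ⟨r1, r2⟩ := hp
    rw [one_smul] at r2
    by_cases hA : e ^ n * C ∈ A
    · exact ⟨π ⟨_, hA⟩, r1.unique (S.R₁.res_algebraMap ⟨_, hA⟩),
        r2.unique (S.R₂.res_algebraMap ⟨_, hA⟩)⟩
    · exfalso
      have hinv : (e ^ n * C)⁻¹ ∈ A := (A.mem_or_inv_mem _).resolve_left hA
      have hπ : π ⟨_, hinv⟩ = 0 := Reduction.map_eq_zero_of_inv_notMem S.MC.surj (by simpa)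
      have hs : (e ^ n * C) ≠ 0 := fun h0 => hA (h0 ▸ A.zero_mem)
      have k1 := (S.R₁.res_algebraMap ⟨_, hinv⟩).mul r1
      rw [← map_mul, inv_mul_cancel₀ hs, map_one, hπ, map_zero, zero_mul] at k1
      exact one_ne_zero (S.R₁.res_one.unique k1)
  rw [Prod.pow_fst] at hr1
  rw [Prod.pow_snd] at hr2
  obtain ⟨a, ha⟩ := exists_const_of_pow hn0 hr1
  obtain ⟨b, hb⟩ := exists_const_of_pow hn0 hr2
  have hab : a ^ n = b ^ n := (algebraMap k Fb).injective (by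
    rw [map_pow, map_pow, ← ha, ← hb, hr1, hr2])
  have ha0 : a ≠ 0 := fun h0 => by
    have hb0 : b = 0 := (pow_eq_zero_iff hn0).1 (by rw [← hab, h0, zero_pow hn0])
    refine hw (Prod.ext ?_ ?_)
    · exact (mul_eq_zero.1 (show w.1 * z.g.1 = 0 by
        rw [← Prod.fst_mul]; show φ.1 = 0; rw [ha, h0, map_zero])).resolve_right z.g₁_ne
    · exact (mul_eq_zero.1 (show w.2 * z.g.2 = 0 by
        rw [← Prod.snd_mul]; show φ.2 = 0; rw [hb, hb0, map_zero])).resolve_right z.g₂_ne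
  refine ⟨b / a, fun i => ?_⟩
  have h1 := z.twist_spec N 0 φ hφ i
  rw [ha, hb, AlgHom.commutes, Algebra.algebraMap_eq_smul_one, Algebra.algebraMap_eq_smul_one,
    map_smul, map_smul, N.s_one, smul_eq_mul, smul_eq_mul, mul_one, mul_one] at h1
  rw [h1, mul_div_cancel_right₀ _ ha0]

/-- Constant gluing constants mean a trivial class. -/
theorem InK.eq_zero (hS : S.Good) (h : InK N n x 1) : x = 0 := by
  obtain ⟨z, D, rfl, hD, hz⟩ := h
  obtain ⟨r, hr⟩ := Sheet.KData.exists_root _ hS N hz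
  have hn0 : n ≠ 0 := (Nat.pos_iff_ne_zero.1 z.pos)
  have hr0 : r ≠ 0 := fun h0 => z.f_ne (by rw [← hr, h0, zero_pow hn0])
  refine (QuotientAddGroup.eq_zero_iff _).2 (AddSubgroup.mem_addSubgroupOf.2 ⟨r, hr0, fun v => ?_⟩)
  exact mul_left_cancel₀ (Int.natCast_ne_zero.2 hn0) (by rw [← hD, ← hr, ord_pow])

/-- The gluing constants are determined by the class up to a constant. -/
theorem InK.exists_eq_mul (hS : S.Good) (h : InK N n x ζ) (h' : InK N n x ξ) :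
    ∃ c, c ^ n = 1 ∧ ∀ i, ξ i = c * ζ i := by
  obtain ⟨m, rfl⟩ : ∃ m, n = m + 1 := by
    obtain ⟨z, -⟩ := h
    exact ⟨n - 1, (Nat.sub_add_cancel z.pos).symm⟩
  have h0 : InK N (m + 1) (0 : Pic0 L F) (ζ ^ m * ξ) := by
    have h2 := (h.nsmul hS m).mul hS h'
    rwa [← succ_nsmul, h.nsmul_eq_zero] at h2
  obtain ⟨c, hc, hci⟩ := h0.exists_eq_const hS
  refine ⟨c, hc, fun i => ?_⟩
  rw [← hci i, Pi.mul_apply, Pi.pow_apply, mul_right_comm, ← pow_succ, h.pow_eq_one i, one_mul]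

/-- An automorphism trivial on both reductions fixes the class. -/
theorem InK.smul_eq (hS : S.Good) (P : S.Sym) (hb : P.σb = RingHom.id Fb) (h : InK N n x ζ) :
    P.σ • x = x := by
  obtain ⟨z, D, rfl, hD, -⟩ := h
  have hn0 : n ≠ 0 := (Nat.pos_iff_ne_zero.1 z.pos)
  obtain ⟨r, hr⟩ := P.exists_smul_eq hS N z (e := 1) fun i a _ _ => by simp [hb]
  have hσ : P.σ • z.f ≠ 0 := (smul_ne_zero_iff_ne P.σ).2 z.f_ne
  have hr0 : r ≠ 0 := fun h0 => hσ (by rw [hr, h0, zero_pow hn0, mul_zero])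
  rw [SemilinearAut.pic0_smul_mk]
  refine BadRed.mk_eq_of_ord hn0 hr0 fun v => ?_
  have e := congrArg v.ord hr
  rw [BadRed.ord_smul', pow_one, v.ord_mul z.f_ne (pow_ne_zero _ hr0), ord_pow, hD, hD] at e
  rw [SemilinearAut.coe_degZeroSMulHom, SemilinearAut.divisor_smul_apply]
  exact e

/-- An element with integral power is integral. -/
theorem exists_res_root {R : Reduction π F Fb} (hπ : Function.Surjective π) (hR : R.Scaled) {f : F}
    {b : Fb} {P : ℕ} (hP : P ≠ 0) (hb : b ≠ 0) (h : R.Res (f ^ P) b) :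
    ∃ a, R.Res f a ∧ a ^ P = b := by
  have hf : f ≠ 0 := fun h0 => hb (by
    rw [h0, zero_pow hP] at h
    exact h.unique R.res_zero)
  obtain ⟨c, a, ha, hca⟩ := hR f hf
  have hc : c ≠ 0 := fun h0 => ha (by
    rw [h0, zero_smul] at hca
    exact hca.unique R.res_zero)
  by_cases hA : c⁻¹ ∈ A
  · have h1 := hca.smul ⟨c⁻¹, hA⟩
    rw [smul_smul, inv_mul_cancel₀ hc, one_smul] at h1
    exact ⟨_, h1, (h1.pow P).unique h⟩
  · exfalso
    have hcA : c ∈ A := by simpa using (A.mem_or_inv_mem c⁻¹).resolve_left hA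
    have h1 := hca.pow P
    rw [_root_.smul_pow] at h1
    have h2 := h.smul ⟨c ^ P, pow_mem hcA P⟩
    have h3 := h1.unique h2
    rw [show π ⟨c ^ P, pow_mem hcA P⟩ = π ⟨c, hcA⟩ ^ P from map_pow π ⟨c, hcA⟩ P,
      Reduction.map_eq_zero_of_inv_notMem hπ (a := ⟨c, hcA⟩) hA, zero_pow hP, zero_smul] at h3
    exact pow_ne_zero P ha h3

/-- Data of level `p ^ (j + 1)` with constants in `μ_p` come from level `p`. -/
theorem InK.descend (hS : S.Good) {p j : ℕ} (hp : (p : k) ≠ 0) (h : InK N (p ^ (j + 1)) y ζ)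
    (hζ : ∀ i, ζ i ^ p = 1) : InK N p y ζ := by
  have h1 := h.nsmul hS p
  rw [show ζ ^ p = 1 from funext fun i => by rw [Pi.pow_apply, hζ, Pi.one_apply]] at h1
  have hpy := h1.eq_zero hS
  obtain ⟨z, D, rfl, hD, htw⟩ := h
  have hp0 : p ≠ 0 := fun h0 => hp (by rw [h0, Nat.cast_zero])
  have hP : p ^ j ≠ 0 := pow_ne_zero j hp0
  obtain ⟨r, hr, hrD⟩ := AddSubgroup.mem_addSubgroupOf.1
    ((QuotientAddGroup.eq_zero_iff _).1 ((QuotientAddGroup.mk_nsmul _ D p).trans hpy))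
  have hrD' : ∀ v, v.ord r = (p : ℤ) * (D : Divisor L F) v := fun v => by
    rw [← hrD v, AddSubgroupClass.coe_nsmul, Finsupp.smul_apply, nsmul_eq_mul]
  obtain ⟨C, hC⟩ := eq_algebraMap_of_forall_ord_nonneg (K := L) (f := z.f / r ^ p ^ j) fun v => by
    rw [ord_div v z.f_ne (pow_ne_zero _ hr), ord_pow, hD, hrD']
    push_cast
    exact le_of_eq (by ring)
  obtain ⟨ρ, hρ⟩ := IsAlgClosed.exists_pow_nat_eq C (Nat.pos_of_ne_zero hP)
  set f' := algebraMap L F ρ * r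
  have hf' : f' ^ p ^ j = z.f := by
    rw [mul_pow, ← map_pow, hρ, ← hC, div_mul_cancel₀ _ (pow_ne_zero _ hr)]
  have hf'0 : f' ≠ 0 := fun h0 => z.f_ne (by rw [← hf', h0, zero_pow hP])
  have hord : ∀ v, v.ord f' = (p : ℤ) * (D : Divisor L F) v := fun v => by
    have e := congrArg v.ord hf'
    rw [ord_pow, hD] at e
    refine mul_left_cancel₀ (Int.natCast_ne_zero.2 hP) (e.trans ?_)
    push_cast
    ring
  have hz1 := z.res.1
  have hz2 := z.res.2
  rw [Prod.pow_fst, ← hf'] at hz1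
  have epow : ∀ x : L, x ^ p ^ (j + 1) = (x ^ p) ^ p ^ j := fun x => by rw [← pow_mul, pow_succ']
  have epow' : ∀ x : Fb, x ^ p ^ (j + 1) = (x ^ p) ^ p ^ j := fun x => by rw [← pow_mul, pow_succ']
  rw [Prod.pow_snd, epow z.d⁻¹, ← hf', ← _root_.smul_pow] at hz2
  obtain ⟨a₁, ha₁, he₁⟩ := exists_res_root S.MC.surj S.scaled₁ hP (pow_ne_zero _ z.g₁_ne) hz1
  obtain ⟨a₂, ha₂, he₂⟩ := exists_res_root S.MC.surj S.scaled₂ hP
    (pow_ne_zero _ z.g₂_ne) hz2
  have key : ∀ {a g : Fb}, g ≠ 0 → a ^ p ^ j = (g ^ p) ^ p ^ j →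
      ∃ ρ : k, ρ ≠ 0 ∧ (algebraMap k Fb ρ * g) ^ p = a := by
    intro a g hg he
    have h1 : (a / g ^ p) ^ p ^ j = algebraMap k Fb 1 := by
      rw [div_pow, he, div_self (pow_ne_zero _ (pow_ne_zero _ hg)), map_one]
    obtain ⟨ω, hω⟩ := exists_const_of_pow hP h1
    obtain ⟨ρ, hρ⟩ := IsAlgClosed.exists_pow_nat_eq ω (Nat.pos_of_ne_zero hp0)
    refine ⟨ρ, fun h0 => ?_, by
      rw [mul_pow, ← map_pow, hρ, ← hω, div_mul_cancel₀ _ (pow_ne_zero _ hg)]⟩
    rw [← hρ, h0, zero_pow hp0, map_zero, div_eq_zero_iff] at hω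
    rcases hω with hω | hω
    · rw [hω, zero_pow hP] at he
      exact pow_ne_zero _ (pow_ne_zero _ hg) he.symm
    · exact pow_ne_zero _ hg hω
  rw [epow' z.g.1] at he₁
  rw [epow' z.g.2] at he₂
  obtain ⟨ρ₁, hρ₁, hg₁⟩ := key z.g₁_ne he₁
  obtain ⟨ρ₂, hρ₂, hg₂⟩ := key z.g₂_ne he₂
  let z' : S.KData p :=
    { n_ne := hp
      f := f'
      f_ne := hf'0
      dvd := fun v => ⟨_, hord v⟩
      d := z.d
      d_ne := z.d_ne
      g := (algebraMap k Fb ρ₁ * z.g.1, algebraMap k Fb ρ₂ * z.g.2)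
      g₁_ne := mul_ne_zero ((map_ne_zero _).2 hρ₁) z.g₁_ne
      g₂_ne := mul_ne_zero ((map_ne_zero _).2 hρ₂) z.g₂_ne
      res := ⟨by rw [Prod.pow_fst, hg₁]; exact ha₁, by rw [Prod.pow_snd, hg₂]; exact ha₂⟩ }
  have hzD : z'.D = z.D := Finsupp.ext fun v => by
    have e1 : z'.D v = (D : Divisor L F) v :=
      mul_left_cancel₀ (Int.natCast_ne_zero.2 hp0) ((z'.mul_D v).trans (hord v))
    have e2 : z.D v = (D : Divisor L F) v :=
      mul_left_cancel₀ (Int.natCast_ne_zero.2 (pow_ne_zero _ hp0)) ((z.mul_D v).trans (hD v))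
    rw [e1, e2]
  have hK : InK N p (Pic0.mk D) (fun i => ρ₂ / ρ₁ * ζ i) :=
    ⟨z', D, rfl, hord, z'.twist_eq hS N fun m φ hφ i => by
      obtain ⟨u, hu, w, hw, rfl⟩ := z'.mem_normImg.1 hφ
      have hu' : u ∈ z.space m := by
        rw [Sheet.KData.space, hzD] at hu
        exact hu
      have h1 := z.twist_spec N m _ (z.mem_normImg.2 ⟨u, hu', w, hw, rfl⟩) i
      show N.s i (S.V (w.2 * (algebraMap k Fb ρ₂ * z.g.2))) =
        ρ₂ / ρ₁ * ζ i * N.s i (w.1 * (algebraMap k Fb ρ₁ * z.g.1))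
      rw [mul_left_comm, ← Algebra.smul_def, map_smul, map_smul, smul_eq_mul, mul_left_comm w.1,
        ← Algebra.smul_def, map_smul, smul_eq_mul]
      rw [Prod.snd_mul, Prod.fst_mul, htw] at h1
      rw [h1]
      field_simp⟩
  rcases isEmpty_or_nonempty (Fin N.n) with he | ⟨⟨i₀⟩⟩
  · rwa [show (fun i => ρ₂ / ρ₁ * ζ i) = ζ from funext fun i => he.elim i] at hK
  have hc := hK.pow_eq_one i₀
  rw [mul_pow, hζ, mul_one] at hc
  have hK' := hK.const_mul hS (c := (ρ₂ / ρ₁)⁻¹) (by rw [inv_pow, hc, inv_one])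
  rwa [show (fun i => (ρ₂ / ρ₁)⁻¹ * (ρ₂ / ρ₁ * ζ i)) = ζ from funext fun i => by
    rw [← mul_assoc, inv_mul_cancel₀ (div_ne_zero hρ₂ hρ₁), one_mul]] at hK'

end FLTAgent.Entry.Surj
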