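import Fermat.Agent.Lowering.P7.Geometry
import Fermat.Agent.Entry.Surj.KData
import Fermat.Agent.Entry.Surj.Abelian

/-!
# A fixed multiple of a class fixed by inertia and killed by both pushforwards is toric

The order of the first reduction at the glued points is a multiple of that of the measuring
function, hence killed by twelve times its total order; the classes of the two reductions are
fixed by the square of Frobenius, hence killed by one number.
-/

set_option autoImplicit false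
set_option linter.style.haveILetI false
set_option linter.unusedSectionVars false
set_option synthInstance.maxHeartbeats 400000
set_option maxHeartbeats 2000000

noncomputable section

open AlgebraicCurve ModularCurve IsLocalRing

namespace FLTAgent.Entry.Surj

open FLTAgent.Curves FLTAgent.Specialization FLTAgent.BadRed FLTAgent.MazurPrinciple
open FLTAgent.Lowering.P7
open FLTAgent.EigenLattice (pushPic isPrincipal_of_pushPic_eq_zero)
open AlgebraicCurve.SemilinearAut (baseAut)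
open FLTAgent.Jac27.Finite.Geom (Frob isQ_prime)

local notation "QA" => AlgebraicClosure ℚ
local notation "GG" => (AlgebraicClosure ℚ ≃ₐ[ℚ] AlgebraicClosure ℚ)

attribute [local instance 2000] fullCAlgebra laurentAlgebra x0BarAlgebra

variable {q : ℕ} [Fact q.Prime] [NeZero q] {M : ℕ} [NeZero M] [NeZero (M * q)] (hqM : ¬ q ∣ M)
  {A : ValuationSubring QA} [IsAlgClosed (ResidueField A)] [CharP (ResidueField A) q]
  [Curves.IsFunctionField (ResidueField A) (modularFunctionFieldFullC (ResidueField A) M)]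
  (hA : A.LiesOverPrime q)
  (hsm : (modularModel (π := residue A) residue_surjective M
    (BadRed.natCast_ne_zero hqM (ResidueField A))).Smooth)

local notation "kk" => ResidueField A
local notation "galN" => arithmeticGalois (modularFunctionFieldFull (M * q))

/-- Frobenius on the special fibre. -/
theorem exists_frob {σ : GG} (hσ : A.IsFrobeniusAt σ q) :
    ∃ Φ : Frob kk (modularFunctionFieldFullC kk M),
      ∀ g, Φ.φ g = (frobSym hqM hA hσ).σb g := by
  letI := ZMod.algebra kk q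
  haveI : Algebra.IsAlgebraic (ZMod q) kk := FrobTrace.isAlgebraic_residueField hA
  set S := sheetAt hqM hA
  set P := frobSym hqM hA hσ
  let ψ : modularFunctionFieldFullC kk M ≃+* modularFunctionFieldFullC kk M :=
    SemilinearAut.toRingAut (Kronecker.specialAut M
      (Kronecker.residueAut A ⟨σ, hσ.mem_decompositionSubgroup⟩))
  have hψ : ∀ g, ψ g = P.σb g := fun g => rfl
  refine ⟨{ φ := ψ, q := q, hQ := isQ_prime q kk,
            commutes := fun a => ?_, x := S.MC.xb, trans := S.MC.transcendental, fix := ?_ }, hψ⟩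
  · refine S.V_injective ?_
    rw [hψ, frobSym_V hqM hA hσ, AlgHom.commutes, map_pow]
  · have h1 := P.res₁ _ _ (S.α₁ _ _ S.MC.x_res)
    rw [show S.α S.MC.x = S.X from rfl, P.σX] at h1
    rw [hψ]
    exact h1.unique (S.α₁ _ _ S.MC.x_res)

include hsm in
/-- **The bound.** -/
theorem exists_bound {p : ℕ} [Fact p.Prime] (hpq : p ≠ q) (N : (sheetAt hqM hA).Nodes) :
    ∃ C : ℕ, C ≠ 0 ∧ ∀ (j : ℕ) (x : JZero (M * q)), p ^ j • x = 0 →
      (∀ τ ∈ A.inertiaSubgroupIn ℚ, τ • x = x) →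
      pushPic M q (heckeAlphaBar QA M q) x = 0 → pushPic M q (heckeBetaBar QA M q) x = 0 →
      ∃ ζ, InK N (p ^ j) (C • x) ζ := by
  classical
  haveI := instIsFunctionFieldX0Bar M
  haveI := instIsFunctionFieldX0Bar (M * q)
  obtain ⟨σ, hσ⟩ := Frobenius.exists_isFrobeniusAt A q (Fact.out : q.Prime) hA
  obtain ⟨Φ, hΦ⟩ := exists_frob hqM hA hσ
  obtain ⟨C₂, hC₂0, hC₂⟩ := exists_sq_fixed_bound Φ
  obtain ⟨U, hu, -, hUw, -⟩ := exists_unitData (M := M) hqM residue_surjective (rankOne_residue hA)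
  set S' : ℤ := ∑ t ∈ U.nodes, t.ord U.ub
  set T : ℕ := if U.nodes = ∅ then 1 else 12 * S'.natAbs
  have hTpos : T ≠ 0 := by
    by_cases he : U.nodes = ∅
    · simp [T, he]
    · have : 0 < S' := Finset.sum_pos (fun t ht => (U.mem_nodes.1 ht).2)
        (Finset.nonempty_iff_ne_empty.2 he)
      simp only [T, if_neg he]
      omega
  refine ⟨T * C₂, mul_ne_zero hTpos hC₂0, fun j x hnx hfix hα hβ => ?_⟩
  set n := p ^ j
  have hqn : ¬ q ∣ n := fun h =>
    hpq ((Nat.prime_dvd_prime_iff_eq Fact.out Fact.out).1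
      ((Fact.out : q.Prime).dvd_of_dvd_pow h)).symm
  have hn0 : n ≠ 0 := pow_ne_zero _ (Fact.out : p.Prime).ne_zero
  have hnk : (n : kk) ≠ 0 := fun h => hqn ((CharP.cast_eq_zero_iff kk q n).1 h)
  set V := ratVal hA
  set S := sheetAt hqM hA
  have hS : S.Good := good hqM hA hsm
  have hS' : ∀ h, (S.swap h).Good := fun h => swap_good hqM hA hsm h
  have hdeg : finrankAlong QA S.β = q + 1 := finrankAlong_beta hqM
  obtain ⟨f, D, hf, hD, rfl, hffix⟩ :=
    exists_fixed_rep hn0 (G := (A.inertiaSubgroupIn ℚ : Set GG)) hnx hfix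
  obtain ⟨d₁, d₂, g₁, g₂, hd₁, hd₂, hg₁, hg₂, hd₁G, hd₂G, hr₁, hr₂⟩ :=
    exists_fixed_scales hqM hA hsm (G := A.inertiaSubgroupIn ℚ) le_rfl hf hffix
  obtain ⟨h, hh⟩ := exists_res_rel hqM hA hσ hnk hf D hD hα hg₁ hg₂ hr₁ hr₂
  obtain ⟨h', hh'⟩ : ∃ h, g₂ * (frobSym hqM hA hσ).σb g₁ = h ^ n := by
    have hP := isPrincipal_of_pushPic_eq_zero M q (heckeBetaBar QA M q) D hβ
    have hfin : FiniteAlong QA (heckeBetaBar QA M q) := Kronecker.finiteAlong _
    obtain ⟨c₀, h₀, -, hh₀, hn₀⟩ := Sheet.exists_norm_eq (Kronecker.isIntegralAlong _) hfin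
      (Kronecker.normFormulaAlong _ hfin) hf hD hP
    exact Sheet.exists_pow_eq (S := S.swap hdeg) (pow_injective_fullC M q) (frobSym_V hqM hA hσ) hnk
      hh₀ hn₀ hg₂ hg₁ hr₂ hr₁
  obtain ⟨z₁, hz₁⟩ := exists_v_eq_intCast hA hd₁ hd₁G
  obtain ⟨z₂, hz₂⟩ := exists_v_eq_intCast hA hd₂ hd₂G
  have hσg : (frobSym hqM hA hσ).σb g₂ ≠ 0 := (map_ne_zero _).2 hg₂
  have hrel : ∀ P : Place kk (modularFunctionFieldFullC kk M),
      (n : ℤ) ∣ P.ord g₁ + P.ord ((frobSym hqM hA hσ).σb g₂) := fun P => by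
    rw [← P.ord_mul hg₁ hσg, hh, Curves.ord_pow]
    exact dvd_mul_right _ _
  have hoff : ∀ P, P ∉ U.nodes → (n : ℤ) ∣ P.ord g₁ := fun P hP =>
    ord_dvd_off_nodes U V hS (Nat.pos_of_ne_zero hn0) hf (D : Divisor QA (X0Bar (M * q))) hD hd₁ hd₂
      hg₁ hg₂ hr₁ hr₂ (exists_V_eq hqM hA hσ) (frobSym_V hqM hA hσ g₂) hrel hP
  have hDinv : ∀ τ ∈ A.inertiaSubgroupIn ℚ, ∀ Q, (D : Divisor QA (X0Bar (M * q))) (galN τ • Q) =
      (D : Divisor QA (X0Bar (M * q))) Q := fun τ hτ Q => by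
    have h := hD (galN τ • Q)
    rw [← hffix τ hτ, SemilinearAut.ord_smul, hD Q] at h
    exact (mul_left_cancel₀ (Int.natCast_ne_zero.2 hn0) h).symm
  have hnode : ∀ P ∈ U.nodes,
      (n : ℤ) ∣ 12 * P.ord g₁ + P.ord U.ub * (z₂ - z₁) := fun P hn => by
    obtain ⟨lam, hl0, hlfix, hlv⟩ := exists_slope_nth (U := U) (H := inertiaSet A (M * q)) V hS
      hdeg hS' (liftsInvariant_of_smooth hqM hA hsm) (exists_liftc hA _)
      (fun σ hσ => smul_unitSer hu hσ) hf (D : Divisor QA (X0Bar (M * q))) hD hg₁ hg₂ hr₁ hr₂ hn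
    obtain ⟨z, hz⟩ := exists_v_eq_intCast hA hl0 fun τ hτ => by
      have h := hlfix (galN τ) ⟨τ, hτ, rfl⟩ (hDinv τ hτ)
      rwa [baseAut_arith] at h
    change (ratVal hA).v d₁ = _ at hz₁
    rw [hz, hz₁, hz₂, hUw] at hlv
    exact ⟨z, by exact_mod_cast hlv.symm⟩
  have hall : ∀ P : Place kk (modularFunctionFieldFullC kk M), (n : ℤ) ∣ (T : ℤ) * P.ord g₁ := fun P => by
    by_cases hn : P ∈ U.nodes
    swap
    · exact dvd_mul_of_dvd_right (hoff P hn) _
    have hne : U.nodes ≠ ∅ := Finset.ne_empty_of_mem hn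
    have hS0 : 0 < S' := Finset.sum_pos (fun t ht => (U.mem_nodes.1 ht).2) ⟨P, hn⟩
    have hsum : (n : ℤ) ∣ ∑ t ∈ U.nodes, t.ord g₁ := by
      set s := (divOf kk g₁).support ∪ U.nodes
      have h0 : ∑ v ∈ s, v.ord g₁ = 0 := by
        rw [← degree_divOf (K := kk) g₁,
          degree_eq_sum (D := divOf kk g₁) (s := s) Finset.subset_union_left]
        rfl
      rw [← Finset.sum_sdiff (Finset.subset_union_right (s₂ := U.nodes))] at h0
      have h1 : (n : ℤ) ∣ ∑ v ∈ s \ U.nodes, v.ord g₁ :=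
        Finset.dvd_sum fun v hv => hoff v (Finset.mem_sdiff.1 hv).2
      exact (dvd_add_right h1).1 (h0 ▸ dvd_zero _)
    have hΔ : (n : ℤ) ∣ S' * (z₂ - z₁) := by
      have h1 : (n : ℤ) ∣ ∑ t ∈ U.nodes, (12 * t.ord g₁ + t.ord U.ub * (z₂ - z₁)) :=
        Finset.dvd_sum hnode
      rw [Finset.sum_add_distrib, ← Finset.mul_sum, ← Finset.sum_mul] at h1
      exact (dvd_add_right (dvd_mul_of_dvd_right hsum 12)).1 h1
    have hT : (T : ℤ) = 12 * S' := by
      simp only [T, if_neg hne]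
      push_cast
      rw [abs_of_pos hS0]
    rw [hT]
    have e : 12 * S' * P.ord g₁ = S' * (12 * P.ord g₁ + P.ord U.ub * (z₂ - z₁)) -
        P.ord U.ub * (S' * (z₂ - z₁)) := by ring
    rw [e]
    exact dvd_sub (dvd_mul_of_dvd_right (hnode P hn) S') (dvd_mul_of_dvd_right hΔ (P.ord U.ub))
  -- the two reductions of the multiple
  have ha : ∀ v : Place kk (modularFunctionFieldFullC kk M), (n : ℤ) ∣ v.ord (g₁ ^ T) := fun v => by
    rw [Curves.ord_pow]; exact hall v
  obtain ⟨h₁, h₂, hh₁, hh₂, he₁, he₂⟩ := exists_pow_pair Φ (pow_ne_zero T hg₁) (pow_ne_zero T hg₂)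
    hn0 hC₂ ha ⟨h ^ T, by rw [map_pow, hΦ, ← mul_pow, hh, pow_right_comm]⟩
    ⟨h' ^ T, by rw [map_pow, hΦ, ← mul_pow, hh', pow_right_comm]⟩
  rw [← pow_mul] at he₁ he₂
  have p₁ := hr₁.pow (T * C₂)
  have p₂ := hr₂.pow (T * C₂)
  rw [he₁, _root_.smul_pow] at p₁
  rw [he₂, _root_.smul_pow] at p₂
  have hord : ∀ v : Place QA (X0Bar (M * q)), v.ord (f ^ (T * C₂)) =
      (n : ℤ) * (((T * C₂) • D : Divisor.degZero (K := QA) (F := X0Bar (M * q))) :
        Divisor QA (X0Bar (M * q))) v := fun v => by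
    rw [Curves.ord_pow, hD, AddSubgroupClass.coe_nsmul, Finsupp.smul_apply, nsmul_eq_mul]
    ring
  obtain ⟨z, hz⟩ := Sheet.exists_data hnk (pow_ne_zero _ hf)
    (fun v => Dvd.intro _ (hord v).symm) hh₁ hh₂ p₁ p₂
  refine ⟨_, z, (T * C₂) • D, QuotientAddGroup.mk_nsmul _ _ _, fun v => ?_, rfl⟩
  rw [hz, Algebra.smul_def, v.ord_mul ((_root_.map_ne_zero _).2 (pow_ne_zero _ hd₁))
    (pow_ne_zero _ hf), ord_algebraMap, zero_add, hord]

end FLTAgent.Entry.Surj
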