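import Fermat.Agent.S27
import Fermat.Agent.BadRed.Galois

/-!
# The number of glued points and the sizes of torsion groups
-/

set_option autoImplicit false
set_option linter.style.haveILetI false
set_option linter.unusedSectionVars false

noncomputable section

namespace FLTAgent.Entry.Surj

open AlgebraicCurve FLTAgent.Curves FLTAgent.Specialization FLTAgent.BadRed IntermediateField

/-- The torsion of order a prime power of a function field in characteristic zero. -/
theorem card_torsion {K E : Type} [Field K] [Field E] [Algebra K E] [IsAlgClosed K] [CharZero K]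
    [IsFunctionField K E] (p : ℕ) [Fact p.Prime] (j : ℕ) :
    (Nat.card (Pic0.torsion K E (p ^ j)) : ℤ) =
      (p : ℤ) ^ (2 * (rGenus K E).toNat * j) := by
  haveI : CharZero E := charZero_of_injective_algebraMap (algebraMap K E).injective
  haveI : IsCurveOver K E := isCurveOver
  haveI : Algebra.EssFiniteType K E := by
    obtain ⟨t, ht, -⟩ := IsFunctionField.exists_transcendental (K := K) (F := E)
    haveI := finiteDimensional_adjoin (K := K) ht
    haveI : Algebra.EssFiniteType K K⟮t⟯ := (IntermediateField.essFiniteType_iff).2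
      (by classical exact ⟨{t}, by rw [Finset.coe_singleton]⟩)
    exact Algebra.EssFiniteType.comp K K⟮t⟯ E
  rw [Fermat.Agent.S27.result K E p j, Nat.cast_pow, ← Jac27.genusFF_eq_rGenus, Int.toNat_natCast]

variable {L k : Type*} [Field L] [Field k] {A : ValuationSubring L} {π : A →+* k}
  {FC Fb F : Type*} [Field FC] [Field Fb] [Field F] [Algebra L FC]
  [Algebra k Fb] [Algebra L F] [IsAlgClosed L] [IsFunctionField L FC] [IsFunctionField L F]
  [IsAlgClosed k] [IsFunctionField k Fb] {q : ℕ}

/-- The number of glued points. -/
theorem nodes_count {S : Sheet π FC Fb F q} (hS : S.Good) (N : S.Nodes) :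
    (N.n : ℤ) - 1 = rGenus L F - 2 * rGenus k Fb := by
  obtain ⟨c₁, hR⟩ := hS.finrank_rimg
  obtain ⟨c₂, hT⟩ := hS.finrank_targ
  set m := N.m₀ + c₁ + c₂
  have h1 := Sheet.finrank_twisted_add hS N (ζ := 1) (fun _ => one_ne_zero) (m := m) (by omega)
  rw [← hS.rimg_eq_twisted N (by omega)] at h1
  have e1 := hR m (by omega)
  have e2 := hT m (by omega)
  rw [← h1, Nat.cast_add, e1] at e2
  linarith

end FLTAgent.Entry.Surj
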