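import Mathlib

/-!
# Elementary counting in finite abelian groups
-/

set_option autoImplicit false

noncomputable section

namespace FLTAgent.Entry.Surj

/-- An endomorphism with square zero has a kernel of at least half the size. -/
theorem card_le_card_ker_sq {G : Type*} [AddCommGroup G] [Finite G] (T : G →+ G)
    (h : ∀ x, T (T x) = 0) : Nat.card G ≤ Nat.card T.ker ^ 2 := by
  have e : Nat.card G = Nat.card (G ⧸ T.ker) * Nat.card T.ker :=
    AddSubgroup.card_eq_card_quotient_mul_card_addSubgroup _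
  have hr : Nat.card (G ⧸ T.ker) ≤ Nat.card T.ker := by
    rw [Nat.card_congr (QuotientAddGroup.quotientKerEquivRange T).toEquiv]
    refine AddSubgroup.card_le_of_le ?_
    rintro _ ⟨x, rfl⟩
    exact h x
  rw [e, pow_two]
  exact Nat.mul_le_mul_right _ hr

/-- The size of a kernel from that of the target. -/
theorem card_le_card_ker_mul {G H : Type*} [AddCommGroup G] [AddCommGroup H] [Finite G] [Finite H]
    (T : G →+ H) : Nat.card G ≤ Nat.card T.ker * Nat.card H := by
  rw [AddSubgroup.card_eq_card_quotient_mul_card_addSubgroup T.ker, mul_comm,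
    Nat.card_congr (QuotientAddGroup.quotientKerEquivRange T).toEquiv]
  exact Nat.mul_le_mul_left _ (Finite.card_subtype_le _)

/-- A large subgroup of `(μ_{p^k})^ι` contains `(μ_p)^ι`. -/
theorem mem_of_card {k : Type*} [Field k] [IsAlgClosed k] {p j : ℕ} [Fact p.Prime]
    (hp : ((p : ℕ) : k) ≠ 0) {ι : Type*} [Fintype ι] [Finite (ι → rootsOfUnity (p ^ j) k)]
    (Z : Subgroup (ι → rootsOfUnity (p ^ j) k)) {B : ℕ}
    (hB : Nat.card (ι → rootsOfUnity (p ^ j) k) ≤ Nat.card Z * B) (hBj : B < p ^ j)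
    {η : ι → rootsOfUnity (p ^ j) k} (hη : ∀ i, ((η i : kˣ) : k) ^ p = 1) : η ∈ Z := by
  have hP : p.Prime := Fact.out
  haveI : NeZero ((p ^ j : ℕ) : k) := ⟨by push_cast; exact pow_ne_zero _ hp⟩
  haveI : NeZero (p ^ j) := ⟨pow_ne_zero _ hP.ne_zero⟩
  have hμ : Nat.card (rootsOfUnity (p ^ j) k) = p ^ j :=
    HasEnoughRootsOfUnity.natCard_rootsOfUnity k (p ^ j)
  have hall : Nat.card (ι → rootsOfUnity (p ^ j) k) = p ^ (j * Fintype.card ι) := by
    rw [Nat.card_pi, Finset.prod_const, hμ, Finset.card_univ, ← pow_mul]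
  obtain ⟨i, -, hi⟩ := (Nat.dvd_prime_pow hP).1 (hall ▸ Subgroup.index_dvd_card Z)
  have hpos : 0 < Nat.card Z := Nat.card_pos
  have hidx : Z.index ≤ B := by
    have e := Z.card_mul_index
    rw [← e] at hB
    exact Nat.le_of_mul_le_mul_left hB hpos
  have hij : i < j := (Nat.pow_lt_pow_iff_right hP.one_lt).1 (hi ▸ hidx.trans_lt hBj)
  have hroot : ∀ t, ∃ ξ : rootsOfUnity (p ^ j) k, ξ ^ p ^ i = η t := fun t => by
    obtain ⟨x, hx⟩ := IsAlgClosed.exists_pow_nat_eq ((η t : kˣ) : k) (pow_pos hP.pos i)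
    have hx0 : x ≠ 0 := fun h => (η t : kˣ).ne_zero (by
      rw [← hx, h, zero_pow (pow_ne_zero _ hP.ne_zero)])
    refine ⟨⟨Units.mk0 x hx0, ?_⟩, Subtype.ext (Units.ext (by simpa using hx))⟩
    rw [mem_rootsOfUnity]
    refine Units.ext ?_
    rw [Units.val_pow_eq_pow_val, Units.val_mk0, Units.val_one]
    obtain ⟨e, rfl⟩ := Nat.exists_eq_add_of_lt hij
    rw [show p ^ (i + e + 1) = p ^ i * p * p ^ e by rw [← pow_succ, ← pow_add]; ring_nf,
      pow_mul, pow_mul, hx, hη, one_pow]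
  choose ξ hξ using hroot
  have h := Z.pow_index_mem ξ
  rw [hi] at h
  convert h using 1
  exact funext fun t => (hξ t).symm

end FLTAgent.Entry.Surj
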