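import Fermat.Agent.BadRed.Level
import Fermat.Agent.Lowering.P6.Tame
import Fermat.Agent.EigenReps.Level

/-!
# One element of inertia detects the classes fixed by inertia
-/

set_option autoImplicit false
set_option linter.style.haveILetI false
set_option linter.unusedSectionVars false
set_option synthInstance.maxHeartbeats 400000
set_option maxHeartbeats 1000000

noncomputable section

open AlgebraicCurve ModularCurve IsLocalRing

namespace FLTAgent.Entry.Surj

open FLTAgent.BadRed

local notation "QA" => AlgebraicClosure ℚ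
local notation "GG" => (AlgebraicClosure ℚ ≃ₐ[ℚ] AlgebraicClosure ℚ)


variable {q : ℕ} [Fact q.Prime] [NeZero q] {M : ℕ} [NeZero M] [NeZero (M * q)] (hqM : ¬ q ∣ M)
  {A : ValuationSubring QA} (hA : A.LiesOverPrime q)

include hqM hA in
/-- **A generator of tame inertia** on torsion of order a power of `p ≠ q`. -/
theorem exists_generator {p : ℕ} [Fact p.Prime] (hpq : p ≠ q) (j : ℕ) :
    ∃ τ₀ ∈ A.inertiaSubgroupIn ℚ, ∀ x : JZero (M * q), p ^ j • x = 0 → τ₀ • x = x →
      ∀ τ ∈ A.inertiaSubgroupIn ℚ, τ • x = x := by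
  classical
  have hp : p.Prime := Fact.out
  haveI : NeZero (p ^ j) := ⟨pow_ne_zero _ hp.ne_zero⟩
  set n := p ^ j with hn_def
  have hqn : ¬ q ∣ n := fun h =>
    hpq ((Nat.prime_dvd_prime_iff_eq Fact.out hp).1 ((Fact.out : q.Prime).dvd_of_dvd_pow h)).symm
  obtain ⟨φ, hφ⟩ := Frobenius.exists_isFrobeniusAt A q (Fact.out : q.Prime) hA
  obtain ⟨T, -⟩ := Lowering.P6.targetTameGen p q hp (Fact.out : q.Prime) (Ne.symm hpq) A hA φ hφ
  let Tors := {x : JZero (M * q) // n • x = 0}
  haveI : Finite Tors := by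
    haveI := EigenReps.finite_torsion (M * q) n
    exact Finite.of_injective
      (fun x : Tors => (⟨x.1, (EigenReps.mem_torsion_iff_nsmul (M * q)).2 x.2⟩ :
        Pic0.torsion QA (modularFunctionFieldBar (M * q)) n))
      fun a b h => Subtype.ext (congrArg (fun y => (y.1 : JZero (M * q))) h)
  have hst : ∀ (g : GG) (x : JZero (M * q)), n • x = 0 → n • (g • x) = 0 := fun g x hx => by
    have := EigenReps.nsmul_smul_eq_zero (N := M * q) 1 (σ := g) hx
    rwa [one_nsmul] at this
  let perm : A.decompositionSubgroup ℚ →* Equiv.Perm Tors :=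
    { toFun := fun g =>
        { toFun := fun x => ⟨(g : GG) • x.1, hst _ _ x.2⟩
          invFun := fun x => ⟨(g : GG)⁻¹ • x.1, hst _ _ x.2⟩
          left_inv := fun x => Subtype.ext (inv_smul_smul _ _)
          right_inv := fun x => Subtype.ext (smul_inv_smul _ _) }
      map_one' := Equiv.ext fun x => Subtype.ext (one_smul GG x.1)
      map_mul' := fun a b => Equiv.ext fun x => Subtype.ext (mul_smul (a : GG) (b : GG) x.1) }
  have hlev : Lowering.P1.LevC (A.decompositionSubgroup ℚ).subtype perm := by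
    obtain ⟨F, hF, h⟩ := EigenReps.exists_torsion_level (N := M * q) n
    refine ⟨F, hF, fun g s hs => ?_⟩
    rw [map_mul]
    have h1 : perm s = 1 := Equiv.ext fun x => Subtype.ext
      (h _ (fun a ha => (IntermediateField.mem_fixingSubgroup_iff F _).1 hs a ha) x.1 x.2)
    rw [h1, mul_one]
  have hpow : ∀ g ∈ A.inertiaSubgroupIn ℚ, ∀ (x : JZero (M * q)), n • x = 0 → ∀ i : ℕ,
      g ^ i • x = x + i • (g • x - x) := by
    intro g hg x hx i
    induction i with
    | zero => simp
    | succ i ih =>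
      have h2 : g • (g • x - x) = g • x - x := by
        rw [smul_sub]; exact inertia_smul_smul_torsion hA hqM hg hqn hx
      rw [pow_succ', mul_smul, ih, smul_add, smul_comm g i, h2, succ_nsmul]
      abel
  have hgen := (T.gen perm hlev fun τ hτ => ⟨j, Equiv.ext fun x => Subtype.ext (by
    rw [← map_pow]
    show ((τ ^ p ^ j : A.decompositionSubgroup ℚ) : GG) • x.1 = x.1
    rw [Subgroup.coe_pow, hpow _ hτ x.1 x.2, ← hn_def, nsmul_sub,
      hst _ _ x.2, x.2, sub_zero, add_zero])⟩).1
  refine ⟨(T.σ : GG), T.σ_mem, fun x hx h0 τ hτ => ?_⟩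
  obtain ⟨z, hz⟩ := Subgroup.mem_zpowers_iff.1
    (hgen ⟨τ, Places.inertia_le_decomposition A hτ⟩ hτ)
  have h1 : ∀ z : ℤ, (perm T.σ ^ z) ⟨x, hx⟩ = ⟨x, hx⟩ := by
    intro z
    exact Equiv.Perm.zpow_apply_eq_self_of_apply_eq_self (Subtype.ext h0) z
  have h2 := h1 z
  rw [hz] at h2
  exact congrArg Subtype.val h2

end FLTAgent.Entry.Surj
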